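import Mathlib

/-!
# Row LT, tower T2, leaf T2.26 (helper354): continuous characters of `ℝ`

A continuous function `χ : ℝ → ℂ` with `χ 0 = 1` and `χ (s + t) = χ s * χ t` is `t ↦ exp (c t)`;
if moreover `χ (2π) = 1` then `χ t = exp (i t) ^ n` for an integer `n`.

Mathlib only.
-/

open MeasureTheory Filter Topology

noncomputable section

namespace Fermat.Agent.LT.T2.H354

/-- A continuous multiplicative function on `ℝ` is an exponential. -/
theorem char_eq_exp354 (χ : ℝ → ℂ) (hc : Continuous χ) (h0 : χ 0 = 1)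
    (hmul : ∀ s t, χ (s + t) = χ s * χ t) : ∃ c : ℂ, ∀ t : ℝ, χ t = Complex.exp (c * t) := by
  -- the primitive
  set I : ℝ → ℂ := fun t => ∫ s in (0 : ℝ)..t, χ s with hI
  have hderI : ∀ t, HasDerivAt I (χ t) t := fun t =>
    intervalIntegral.integral_hasDerivAt_right (hc.intervalIntegrable _ _)
      hc.aestronglyMeasurable.stronglyMeasurableAtFilter hc.continuousAt
  have hI0 : I 0 = 0 := by simp [hI]
  -- a point where the primitive does not vanish
  obtain ⟨δ, hδ⟩ : ∃ δ : ℝ, I δ ≠ 0 := by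
    have h1 : HasDerivAt I (1 : ℂ) 0 := by
      have := hderI 0
      rwa [h0] at this
    have h2 : ∀ᶠ z in 𝓝[≠] (0 : ℝ), I z ≠ 0 := h1.eventually_ne one_ne_zero
    obtain ⟨δ, hδ⟩ := h2.exists
    exact ⟨δ, hδ⟩
  -- the functional equation for the primitive
  have hkey : ∀ t, χ t * I δ = I (t + δ) - I t := by
    intro t
    have e1 : χ t * I δ = ∫ s in (0 : ℝ)..δ, χ (t + s) := by
      rw [hI]
      change χ t * ∫ s in (0 : ℝ)..δ, χ s = _
      rw [← intervalIntegral.integral_const_mul]
      refine intervalIntegral.integral_congr fun s _ => ?_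
      change χ t * χ s = χ (t + s)
      rw [hmul]
    have e2 : ∫ s in (0 : ℝ)..δ, χ (t + s) = ∫ s in (t + 0)..(t + δ), χ s := by
      rw [intervalIntegral.integral_comp_add_left (fun s => χ s) t]
    have e3 : ∫ s in (t + 0)..(t + δ), χ s = I (t + δ) - I t := by
      rw [add_zero, hI]
      change _ = (∫ s in (0 : ℝ)..(t + δ), χ s) - ∫ s in (0 : ℝ)..t, χ s
      rw [intervalIntegral.integral_interval_sub_left (hc.intervalIntegrable _ _)
        (hc.intervalIntegrable _ _)]
    rw [e1, e2, e3]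
  set c : ℂ := (χ δ - 1) / I δ with hcdef
  have hχ : ∀ t, χ t = (I (t + δ) - I t) / I δ := fun t => by
    rw [← hkey t, mul_div_assoc, div_self hδ, mul_one]
  have hderχ : ∀ t, HasDerivAt χ (c * χ t) t := by
    intro t
    have h1 : HasDerivAt (fun t => I (t + δ)) (χ (t + δ)) t :=
      HasDerivAt.comp_add_const t δ (hderI (t + δ))
    have h2 : HasDerivAt (fun t => (I (t + δ) - I t) / I δ) ((χ (t + δ) - χ t) / I δ) t :=
      (h1.sub (hderI t)).div_const _
    have h3 : (fun t => (I (t + δ) - I t) / I δ) = χ := by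
      funext s
      exact (hχ s).symm
    rw [h3] at h2
    have h4 : (χ (t + δ) - χ t) / I δ = c * χ t := by
      rw [hcdef, hmul]
      field_simp
    rwa [h4] at h2
  -- `χ(t) exp(-c t)` is constant
  set g : ℝ → ℂ := fun t => χ t * Complex.exp (-(c * t)) with hg
  have hderg : ∀ t, HasDerivAt g 0 t := by
    intro t
    have h1 : HasDerivAt (fun t : ℝ => -(c * (t : ℂ))) (-c) t := by
      have h0 : HasDerivAt (fun t : ℝ => (t : ℂ)) 1 t := by
        simpa using (hasDerivAt_id t).ofReal_comp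
      have h5 := (h0.const_mul c).neg
      rw [mul_one] at h5
      exact h5
    have h2 : HasDerivAt (fun t : ℝ => Complex.exp (-(c * (t : ℂ))))
        (Complex.exp (-(c * t)) * (-c)) t := h1.cexp
    have h3 := (hderχ t).mul h2
    have h4 : c * χ t * Complex.exp (-(c * t)) + χ t * (Complex.exp (-(c * t)) * (-c)) = 0 := by
      ring
    rw [h4] at h3
    exact h3
  have hconst : ∀ t, g t = g 0 := by
    intro t
    have hd : Differentiable ℝ g := fun s => (hderg s).differentiableAt
    exact is_const_of_deriv_eq_zero hd (fun s => (hderg s).deriv) t 0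
  refine ⟨c, fun t => ?_⟩
  have h1 := hconst t
  have h2 : g 0 = 1 := by simp [hg, h0]
  rw [h2, hg] at h1
  simp only at h1
  have h3 : χ t = χ t * Complex.exp (-(c * t)) * Complex.exp (c * t) := by
    rw [mul_assoc, ← Complex.exp_add, neg_add_cancel, Complex.exp_zero, mul_one]
  rw [h3, h1, one_mul]

/-- A continuous multiplicative function on `ℝ` of period `2π` is `t ↦ exp (i t) ^ n`. -/
theorem char_periodic354 (χ : ℝ → ℂ) (hc : Continuous χ) (h0 : χ 0 = 1)
    (hmul : ∀ s t, χ (s + t) = χ s * χ t) (hper : χ (2 * Real.pi) = 1) :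
    ∃ n : ℤ, ∀ t : ℝ, χ t = Complex.exp (t * Complex.I) ^ n := by
  obtain ⟨c, hcχ⟩ := char_eq_exp354 χ hc h0 hmul
  have h1 : Complex.exp (c * ((2 * Real.pi : ℝ) : ℂ)) = 1 := by rw [← hcχ, hper]
  obtain ⟨n, hn⟩ := Complex.exp_eq_one_iff.1 h1
  have hpi : ((2 * Real.pi : ℝ) : ℂ) ≠ 0 := by
    rw [Ne, Complex.ofReal_eq_zero]
    positivity
  have hcn : c = n * Complex.I := by
    have : c * ((2 * Real.pi : ℝ) : ℂ) = (n * Complex.I) * ((2 * Real.pi : ℝ) : ℂ) := by
      rw [hn]; push_cast; ring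
    exact mul_right_cancel₀ hpi this
  refine ⟨n, fun t => ?_⟩
  rw [hcχ, hcn, ← Complex.exp_int_mul]
  congr 1
  ring

end Fermat.Agent.LT.T2.H354

end
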