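import Mathlib
import Fermat.Agent.LT.T2.H354.Char

/-!
# Row LT, tower T2, leaf T2.26 (helper354): characters of `U(2)`

A function `T` on the `2 × 2` complex matrices which is multiplicative, of absolute value one and
continuous on the unitary matrices is `M ↦ (det M) ^ n` there, for an integer `n`.

Proof: `T` is trivial on `SU(2)` (every element of `SU(2)` is conjugate to its inverse by a unitary
matrix, and is a square in `SU(2)`), and `θ ↦ T (diag (e^{iθ}, 1))` is a continuous character of
`ℝ / 2πℤ`.

Mathlib only.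
-/

open Matrix

noncomputable section

namespace Fermat.Agent.LT.T2.H354

local notation "conj" => starRingEnd ℂ

/-- Unitary `2 × 2` matrices. -/
def IsU354 (M : Matrix (Fin 2) (Fin 2) ℂ) : Prop := M * Mᴴ = 1

/-- The matrix `[[a, -b̄], [b, ā]]`. -/
def suM354 (a b : ℂ) : Matrix (Fin 2) (Fin 2) ℂ := !![a, -(conj b); b, conj a]

/-- The matrix `diag (z, 1)`. -/
def dgM354 (z : ℂ) : Matrix (Fin 2) (Fin 2) ℂ := !![z, 0; 0, 1]

/-- The matrix `[[0, u], [-1, 0]]`. -/
def cjM354 (u : ℂ) : Matrix (Fin 2) (Fin 2) ℂ := !![0, u; -1, 0]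

theorem isU354_one : IsU354 1 := by
  unfold IsU354
  simp

theorem IsU354.mul {M N : Matrix (Fin 2) (Fin 2) ℂ} (hM : IsU354 M) (hN : IsU354 N) :
    IsU354 (M * N) := by
  unfold IsU354 at *
  rw [Matrix.conjTranspose_mul, Matrix.mul_assoc, ← Matrix.mul_assoc N, hN, Matrix.one_mul, hM]

theorem IsU354.conjTranspose {M : Matrix (Fin 2) (Fin 2) ℂ} (hM : IsU354 M) : IsU354 Mᴴ := by
  unfold IsU354 at *
  rw [Matrix.conjTranspose_conjTranspose]
  exact mul_eq_one_comm.mp hM

theorem IsU354.conjTranspose_mul {M : Matrix (Fin 2) (Fin 2) ℂ} (hM : IsU354 M) : Mᴴ * M = 1 :=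
  mul_eq_one_comm.mp hM

theorem mat_ext354 {M N : Matrix (Fin 2) (Fin 2) ℂ} (h00 : M 0 0 = N 0 0) (h01 : M 0 1 = N 0 1)
    (h10 : M 1 0 = N 1 0) (h11 : M 1 1 = N 1 1) : M = N := by
  ext i j
  fin_cases i <;> fin_cases j
  · exact h00
  · exact h01
  · exact h10
  · exact h11

theorem mul_apply354 (M N : Matrix (Fin 2) (Fin 2) ℂ) (i j : Fin 2) :
    (M * N) i j = M i 0 * N 0 j + M i 1 * N 1 j := by
  rw [Matrix.mul_apply, Fin.sum_univ_two]

theorem isU354_suM {a b : ℂ} (h : a * conj a + b * conj b = 1) : IsU354 (suM354 a b) := by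
  unfold IsU354
  refine mat_ext354 ?_ ?_ ?_ ?_ <;>
    simp only [mul_apply354, suM354, Matrix.conjTranspose_apply, Matrix.of_apply,
      Matrix.cons_val', Matrix.cons_val_zero, Matrix.cons_val_one, Matrix.cons_val_fin_one,
      RCLike.star_def, map_neg, Complex.conj_conj, Matrix.one_apply_eq, Matrix.one_apply_ne,
      ne_eq, zero_ne_one, one_ne_zero, not_false_eq_true]
  · linear_combination h
  · ring
  · ring
  · linear_combination h

theorem det_suM354 (a b : ℂ) : (suM354 a b).det = a * conj a + b * conj b := by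
  rw [Matrix.det_fin_two]
  simp only [suM354, Matrix.of_apply, Matrix.cons_val', Matrix.cons_val_zero, Matrix.cons_val_one,
    Matrix.cons_val_fin_one]
  ring

theorem isU354_dgM {z : ℂ} (h : z * conj z = 1) : IsU354 (dgM354 z) := by
  unfold IsU354
  refine mat_ext354 ?_ ?_ ?_ ?_ <;>
    simp only [mul_apply354, dgM354, Matrix.conjTranspose_apply, Matrix.of_apply,
      Matrix.cons_val', Matrix.cons_val_zero, Matrix.cons_val_one, Matrix.cons_val_fin_one,
      RCLike.star_def, map_zero, map_one, Matrix.one_apply_eq, Matrix.one_apply_ne,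
      ne_eq, zero_ne_one, one_ne_zero, not_false_eq_true]
  · linear_combination h
  · ring
  · ring
  · ring

theorem det_dgM354 (z : ℂ) : (dgM354 z).det = z := by
  rw [Matrix.det_fin_two]
  simp [dgM354]

theorem isU354_cjM {u : ℂ} (h : u * conj u = 1) : IsU354 (cjM354 u) := by
  unfold IsU354
  refine mat_ext354 ?_ ?_ ?_ ?_ <;>
    simp only [mul_apply354, cjM354, Matrix.conjTranspose_apply, Matrix.of_apply,
      Matrix.cons_val', Matrix.cons_val_zero, Matrix.cons_val_one, Matrix.cons_val_fin_one,
      RCLike.star_def, map_zero, map_one, map_neg, Matrix.one_apply_eq, Matrix.one_apply_ne,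
      ne_eq, zero_ne_one, one_ne_zero, not_false_eq_true]
  · linear_combination h
  · ring
  · ring
  · ring

/-- A unitary matrix of determinant one is `[[a, -b̄], [b, ā]]`. -/
theorem eq_suM354_of_isU {M : Matrix (Fin 2) (Fin 2) ℂ} (hU : IsU354 M) (hd : M.det = 1) :
    M = suM354 (M 0 0) (M 1 0) ∧ M 0 0 * conj (M 0 0) + M 1 0 * conj (M 1 0) = 1 := by
  have hadj : Mᴴ = Matrix.adjugate M := by
    have h1 : Matrix.adjugate M * M = 1 := by rw [Matrix.adjugate_mul, hd, one_smul]
    calc Mᴴ = (Matrix.adjugate M * M) * Mᴴ := by rw [h1, Matrix.one_mul]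
      _ = Matrix.adjugate M * (M * Mᴴ) := by rw [Matrix.mul_assoc]
      _ = Matrix.adjugate M := by rw [hU, Matrix.mul_one]
  have h00 := congrFun (congrFun hadj 0) 0
  have h01 := congrFun (congrFun hadj 0) 1
  have h11 := congrFun (congrFun hadj 1) 1
  rw [Matrix.adjugate_fin_two] at h00 h01 h11
  simp only [Matrix.conjTranspose_apply, Matrix.of_apply, Matrix.cons_val', Matrix.cons_val_zero,
    Matrix.cons_val_one, Matrix.cons_val_fin_one, RCLike.star_def] at h00 h01 h11
  have e11 : M 1 1 = conj (M 0 0) := h00.symm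
  have e01 : M 0 1 = -(conj (M 1 0)) := by rw [h01]; ring
  refine ⟨?_, ?_⟩
  · refine mat_ext354 ?_ ?_ ?_ ?_ <;>
      simp only [suM354, Matrix.of_apply, Matrix.cons_val', Matrix.cons_val_zero,
        Matrix.cons_val_one, Matrix.cons_val_fin_one]
    · exact e01
    · exact e11
  · have := hd
    rw [Matrix.det_fin_two, e11, e01] at this
    linear_combination this

section Char

variable (T : Matrix (Fin 2) (Fin 2) ℂ → ℂ)
  (hmul : ∀ M N, IsU354 M → IsU354 N → T (M * N) = T M * T N)
  (hnorm : ∀ M, IsU354 M → ‖T M‖ = 1)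

include hnorm in
theorem T_ne_zero354 {M : Matrix (Fin 2) (Fin 2) ℂ} (hM : IsU354 M) : T M ≠ 0 := by
  intro h
  have := hnorm M hM
  rw [h, norm_zero] at this
  exact zero_ne_one this

include hmul hnorm

theorem T_one354 : T 1 = 1 := by
  have h := hmul 1 1 isU354_one isU354_one
  rw [Matrix.mul_one] at h
  have h0 := T_ne_zero354 T hnorm isU354_one
  have : T 1 * (T 1 - 1) = 0 := by linear_combination -h
  rcases mul_eq_zero.1 this with h1 | h1
  · exact absurd h1 h0
  · linear_combination h1

theorem T_conjTranspose354 {M : Matrix (Fin 2) (Fin 2) ℂ} (hM : IsU354 M) :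
    T M * T Mᴴ = 1 := by
  rw [← hmul M Mᴴ hM hM.conjTranspose, hM, T_one354 T hmul hnorm]

/-- `T` is `±1` on `SU(2)`. -/
theorem T_suM_sq354 {a b : ℂ} (h : a * conj a + b * conj b = 1) :
    T (suM354 a b) * T (suM354 a b) = 1 := by
  have hs := isU354_suM h
  -- the conjugating matrix
  set u : ℂ := if b = 0 then 1 else -(conj b) / b with hu
  have hub : u * b = -(conj b) := by
    rw [hu]
    split_ifs with hb
    · rw [hb]; simp
    · field_simp
  have huu : u * conj u = 1 := by
    rw [hu]
    split_ifs with hb
    · simp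
    · have hb' : conj b ≠ 0 := by
        rw [Ne, map_eq_zero]; exact hb
      rw [map_div₀, map_neg, Complex.conj_conj]
      field_simp
  have hg := isU354_cjM huu
  have hrel : cjM354 u * suM354 a b = (suM354 a b)ᴴ * cjM354 u := by
    refine mat_ext354 ?_ ?_ ?_ ?_ <;>
      simp only [mul_apply354, suM354, cjM354, Matrix.conjTranspose_apply, Matrix.of_apply,
        Matrix.cons_val', Matrix.cons_val_zero, Matrix.cons_val_one, Matrix.cons_val_fin_one,
        RCLike.star_def, map_neg, Complex.conj_conj]
    · linear_combination hub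
    · ring
    · ring
    · have : conj u * conj b = -b := by
        have := congrArg conj hub
        rw [map_mul, map_neg, Complex.conj_conj] at this
        exact this
      have h2 : b * u = -(conj b) := by rw [mul_comm]; exact hub
      linear_combination h2
  have h1 := hmul _ _ hg hs
  have h2 := hmul _ _ hs.conjTranspose hg
  rw [hrel, h2] at h1
  have hg0 := T_ne_zero354 T hnorm hg
  have h3 : T (suM354 a b)ᴴ = T (suM354 a b) := by
    have : T (cjM354 u) * (T (suM354 a b)ᴴ - T (suM354 a b)) = 0 := by linear_combination h1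
    rcases mul_eq_zero.1 this with h | h
    · exact absurd h hg0
    · linear_combination h
  have h4 := T_conjTranspose354 T hmul hnorm hs
  rw [h3] at h4
  exact h4

/-- `T` is trivial on `SU(2)`. -/
theorem T_suM354 {a b : ℂ} (h : a * conj a + b * conj b = 1) : T (suM354 a b) = 1 := by
  by_cases ha : a = -1
  · -- `b = 0`, the matrix is `-1 = diag(i, -i)²`
    have hb : b = 0 := by
      have h1 : b * conj b = 0 := by
        rw [ha] at h
        simp only [map_neg, map_one] at h
        linear_combination h
      rcases mul_eq_zero.1 h1 with h2 | h2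
      · exact h2
      · exact (map_eq_zero _).1 h2
    have hq : (Complex.I) * conj Complex.I + (0 : ℂ) * conj 0 = 1 := by
      simp [Complex.conj_I]
    have hsq : suM354 a b = suM354 Complex.I 0 * suM354 Complex.I 0 := by
      rw [ha, hb]
      refine mat_ext354 ?_ ?_ ?_ ?_ <;>
        simp [mul_apply354, suM354, Complex.conj_I]
    rw [hsq, hmul _ _ (isU354_suM hq) (isU354_suM hq)]
    exact T_suM_sq354 T hmul hnorm hq
  · -- the square root `(1 + s) / r`
    have hre : (0 : ℝ) < 2 + 2 * a.re := by
      have h1 : Complex.normSq a + Complex.normSq b = 1 := by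
        have := congrArg Complex.re h
        simpa [Complex.mul_conj] using this
      have h2 : Complex.normSq a ≤ 1 := by
        have := Complex.normSq_nonneg b
        linarith
      have h3 : a.re ^ 2 ≤ 1 := by
        have : a.re * a.re + a.im * a.im ≤ 1 := by
          rw [Complex.normSq_apply] at h2
          exact h2
        nlinarith [mul_self_nonneg a.im]
      have h4 : -1 ≤ a.re := by nlinarith
      rcases eq_or_lt_of_le h4 with h5 | h5
      · exfalso
        apply ha
        have him : a.im = 0 := by
          have : a.re * a.re + a.im * a.im ≤ 1 := by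
            rw [Complex.normSq_apply] at h2
            exact h2
          rw [← h5] at this
          have : a.im * a.im ≤ 0 := by linarith
          exact mul_self_eq_zero.1 (le_antisymm this (mul_self_nonneg _))
        exact Complex.ext (by simpa using h5.symm) (by simpa using him)
      · linarith
    set r : ℝ := Real.sqrt (2 + 2 * a.re) with hr
    have hr0 : 0 < r := Real.sqrt_pos.2 hre
    have hr2 : ((r : ℂ)) ^ 2 = 2 + a + conj a := by
      have h1 : r ^ 2 = 2 + 2 * a.re := Real.sq_sqrt hre.le
      have h2 : a + conj a = ((2 * a.re : ℝ) : ℂ) := Complex.add_conj a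
      rw [add_assoc, h2, ← Complex.ofReal_pow, h1]
      push_cast
      ring
    have hrc : (r : ℂ) ≠ 0 := by
      rw [Ne, Complex.ofReal_eq_zero]
      exact hr0.ne'
    have hcr : conj (r : ℂ) = r := Complex.conj_ofReal r
    set a' : ℂ := (1 + a) / r with ha'
    set b' : ℂ := b / r with hb'
    have hq : a' * conj a' + b' * conj b' = 1 := by
      rw [ha', hb', map_div₀, map_div₀, hcr, map_add, map_one]
      field_simp
      rw [hr2]
      linear_combination h
    have hsq : suM354 a b = suM354 a' b' * suM354 a' b' := by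
      refine mat_ext354 ?_ ?_ ?_ ?_ <;>
        simp only [mul_apply354, suM354, Matrix.of_apply, Matrix.cons_val', Matrix.cons_val_zero,
          Matrix.cons_val_one, Matrix.cons_val_fin_one, ha', hb', map_div₀, hcr, map_add,
          map_one]
      · field_simp
        rw [hr2]
        linear_combination h
      · field_simp
        rw [hr2]
        ring
      · field_simp
        rw [hr2]
        ring
      · field_simp
        rw [hr2]
        linear_combination h
    rw [hsq, hmul _ _ (isU354_suM hq) (isU354_suM hq)]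
    exact T_suM_sq354 T hmul hnorm hq

/-- **Characters of `U(2)`.** -/
theorem u2_char354 (hcont : ContinuousOn T {M | IsU354 M}) :
    ∃ n : ℤ, ∀ M, IsU354 M → T M = M.det ^ n := by
  -- the character of the circle
  have hexp : ∀ θ : ℝ, Complex.exp (θ * Complex.I) * conj (Complex.exp (θ * Complex.I)) = 1 := by
    intro θ
    rw [← Complex.exp_conj, ← Complex.exp_add]
    simp [Complex.conj_I]
  set χ : ℝ → ℂ := fun θ => T (dgM354 (Complex.exp (θ * Complex.I))) with hχ
  have hχc : Continuous χ := by
    have h1 : Continuous fun θ : ℝ => dgM354 (Complex.exp (θ * Complex.I)) := by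
      unfold dgM354
      refine continuous_matrix fun i j => ?_
      fin_cases i <;> fin_cases j
      · simp only [Fin.zero_eta, Fin.isValue, Matrix.of_apply, Matrix.cons_val', Matrix.cons_val_zero,
          Matrix.cons_val_fin_one]
        exact Complex.continuous_exp.comp
          ((Complex.continuous_ofReal.comp continuous_id).mul continuous_const)
      · simpa using continuous_const
      · simpa using continuous_const
      · simpa using continuous_const
    exact hcont.comp_continuous h1 fun θ => isU354_dgM (hexp θ)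
  have hχ0 : χ 0 = 1 := by
    have : dgM354 (Complex.exp (((0 : ℝ) : ℂ) * Complex.I)) = 1 := by
      refine mat_ext354 ?_ ?_ ?_ ?_ <;> simp [dgM354]
    rw [hχ]
    simp only
    rw [this, T_one354 T hmul hnorm]
  have hχm : ∀ s t, χ (s + t) = χ s * χ t := by
    intro s t
    rw [hχ]
    simp only
    rw [← hmul _ _ (isU354_dgM (hexp s)) (isU354_dgM (hexp t))]
    congr 1
    refine mat_ext354 ?_ ?_ ?_ ?_ <;>
      simp [mul_apply354, dgM354, ← Complex.exp_add, add_mul]
  have hχp : χ (2 * Real.pi) = 1 := by
    have : dgM354 (Complex.exp (((2 * Real.pi : ℝ) : ℂ) * Complex.I)) = 1 := by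
      have h1 : Complex.exp (((2 * Real.pi : ℝ) : ℂ) * Complex.I) = 1 := by
        push_cast
        exact Complex.exp_two_pi_mul_I
      rw [h1]
      refine mat_ext354 ?_ ?_ ?_ ?_ <;> simp [dgM354]
    rw [hχ]
    simp only
    rw [this, T_one354 T hmul hnorm]
  obtain ⟨n, hn⟩ := char_periodic354 χ hχc hχ0 hχm hχp
  refine ⟨n, fun M hM => ?_⟩
  -- `det M` has absolute value one
  have hdet : M.det * conj M.det = 1 := by
    have h := congrArg Matrix.det hM
    rw [Matrix.det_mul, Matrix.det_conjTranspose, Matrix.det_one] at h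
    exact h
  have hnd : ‖M.det‖ = 1 := by
    have h1 : Complex.normSq M.det = 1 := by
      have := congrArg Complex.re hdet
      simpa [Complex.mul_conj] using this
    rw [Complex.normSq_eq_norm_sq] at h1
    have h3 : ‖M.det‖ ^ 2 = 1 ^ 2 := by rw [h1]; norm_num
    exact (sq_eq_sq₀ (norm_nonneg _) zero_le_one).mp h3
  set θ : ℝ := Complex.arg M.det with hθ
  have hz : Complex.exp (θ * Complex.I) = M.det := by
    have := Complex.norm_mul_exp_arg_mul_I M.det
    rw [hnd, Complex.ofReal_one, one_mul] at this
    exact this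
  -- `M = diag(det M, 1) * s`, `s ∈ SU(2)`
  have hdU : IsU354 (dgM354 M.det) := isU354_dgM hdet
  set s : Matrix (Fin 2) (Fin 2) ℂ := (dgM354 M.det)ᴴ * M with hs
  have hsU : IsU354 s := hdU.conjTranspose.mul hM
  have hsd : s.det = 1 := by
    rw [hs, Matrix.det_mul, Matrix.det_conjTranspose, det_dgM354, RCLike.star_def, mul_comm]
    exact hdet
  have hMs : M = dgM354 M.det * s := by
    rw [hs, ← Matrix.mul_assoc, hdU, Matrix.one_mul]
  obtain ⟨hform, hone⟩ := eq_suM354_of_isU hsU hsd
  have hTs : T s = 1 := by
    rw [hform]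
    exact T_suM354 T hmul hnorm hone
  calc T M = T (dgM354 M.det * s) := by rw [← hMs]
    _ = T (dgM354 M.det) * T s := hmul _ _ hdU hsU
    _ = χ θ := by rw [hTs, mul_one, hχ]; simp only; rw [hz]
    _ = M.det ^ n := by rw [hn θ, hz]

end Char

end Fermat.Agent.LT.T2.H354

end
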