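import Mathlib
import Fermat.Agent.LT.T2.H907.Mat2
import Fermat.Agent.LT.T2.H354.Unitary2

/-!
# Row LT, tower T2, leaf T2.26 (helper354): the local phases

For a `2 × 2` complex matrix `M`:

* `pA354 M = ((M₀₀ + M₁₁) + i (M₁₀ - M₀₁)) / 2`: for a real matrix, the `ℂ`-linear part of the
  `ℝ`-linear map `M` of `ℂ = ℝ²`; it is multiplied by `e^{iθ}` under left and right
  multiplication by the rotation of angle `θ`;
* `ptR354 M = pA354 M / √(frob M / 2)` (real places), `ptC354 M = det M / (frob M / 2)` (complex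
  places): of absolute value `≤ 1`, equivariant under `SO(2)`, resp. `U(2)`, on both sides,
  conjugated by inversion;
* `zp354 z n = z ^ n` for `n ≥ 0`, `(conj z) ^ (-n)` for `n < 0`.

Mathlib only (+ `frob907` of helper907).
-/

open Matrix

noncomputable section

namespace Fermat.Agent.LT.T2.H354

open Fermat.Agent.LT.T2.H907

local notation "conj" => starRingEnd ℂ

/-! ## `pA` -/

/-- The `ℂ`-linear part. -/
def pA354 (M : Matrix (Fin 2) (Fin 2) ℂ) : ℂ :=
  ((M 0 0 + M 1 1) + Complex.I * (M 1 0 - M 0 1)) / 2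

/-- The matrix `[[a, -b], [b, a]]`. -/
def roM354 (a b : ℂ) : Matrix (Fin 2) (Fin 2) ℂ := !![a, -b; b, a]

theorem pA354_roM (a b : ℂ) : pA354 (roM354 a b) = a + Complex.I * b := by
  simp only [pA354, roM354, Matrix.of_apply, Matrix.cons_val', Matrix.cons_val_zero,
    Matrix.cons_val_one, Matrix.cons_val_fin_one]
  ring

theorem pA354_one : pA354 1 = 1 := by
  simp [pA354]

theorem pA354_mul_roM (M : Matrix (Fin 2) (Fin 2) ℂ) (a b : ℂ) :
    pA354 (M * roM354 a b) = pA354 M * (a + Complex.I * b) := by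
  simp only [pA354, mul_apply354, roM354, Matrix.of_apply, Matrix.cons_val', Matrix.cons_val_zero,
    Matrix.cons_val_one, Matrix.cons_val_fin_one]
  linear_combination (-(M 1 0 - M 0 1) * b / 2) * Complex.I_mul_I

theorem pA354_roM_mul (M : Matrix (Fin 2) (Fin 2) ℂ) (a b : ℂ) :
    pA354 (roM354 a b * M) = (a + Complex.I * b) * pA354 M := by
  simp only [pA354, mul_apply354, roM354, Matrix.of_apply, Matrix.cons_val', Matrix.cons_val_zero,
    Matrix.cons_val_one, Matrix.cons_val_fin_one]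
  linear_combination (-(M 1 0 - M 0 1) * b / 2) * Complex.I_mul_I

/-- Real matrices. -/
def IsRe354 (M : Matrix (Fin 2) (Fin 2) ℂ) : Prop := ∀ i j, (M i j).im = 0

theorem IsRe354.conj_eq {M : Matrix (Fin 2) (Fin 2) ℂ} (h : IsRe354 M) (i j : Fin 2) :
    conj (M i j) = M i j :=
  Complex.conj_eq_iff_im.2 (h i j)

theorem IsRe354.det_im {M : Matrix (Fin 2) (Fin 2) ℂ} (h : IsRe354 M) : M.det.im = 0 := by
  rw [Matrix.det_fin_two]
  simp [h 0 0, h 0 1, h 1 0, h 1 1]

theorem isRe354_one : IsRe354 1 := by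
  intro i j
  by_cases h : i = j
  · subst h; simp
  · simp [Matrix.one_apply_ne h]

/-- A real special orthogonal matrix is a rotation. -/
theorem eq_roM354_of_isU {k : Matrix (Fin 2) (Fin 2) ℂ} (hU : IsU354 k) (hd : k.det = 1)
    (hr : IsRe354 k) :
    k = roM354 (k 0 0) (k 1 0) ∧ ‖k 0 0 + Complex.I * k 1 0‖ = 1 := by
  obtain ⟨h1, h2⟩ := eq_suM354_of_isU hU hd
  rw [hr.conj_eq, hr.conj_eq] at h2
  refine ⟨?_, ?_⟩
  · have : suM354 (k 0 0) (k 1 0) = roM354 (k 0 0) (k 1 0) := by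
      unfold suM354 roM354
      rw [hr.conj_eq, hr.conj_eq]
    rw [← this]
    exact h1
  · have h3 : Complex.normSq (k 0 0 + Complex.I * k 1 0) = 1 := by
      have e0 : (k 0 0).im = 0 := hr 0 0
      have e1 : (k 1 0).im = 0 := hr 1 0
      have h4 := congrArg Complex.re h2
      simp only [Complex.add_re, Complex.mul_re, e0, e1, mul_zero, sub_zero, Complex.one_re] at h4
      rw [Complex.normSq_apply]
      simp only [Complex.add_re, Complex.add_im, Complex.mul_re, Complex.mul_im, Complex.I_re,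
        Complex.I_im, e0, e1]
      linarith
    rw [Complex.normSq_eq_norm_sq] at h3
    have h5 : ‖k 0 0 + Complex.I * k 1 0‖ ^ 2 = 1 ^ 2 := by rw [h3]; norm_num
    exact (sq_eq_sq₀ (norm_nonneg _) zero_le_one).mp h5

theorem norm_pA354_of_isU {k : Matrix (Fin 2) (Fin 2) ℂ} (hU : IsU354 k) (hd : k.det = 1)
    (hr : IsRe354 k) : ‖pA354 k‖ = 1 := by
  obtain ⟨h1, h2⟩ := eq_roM354_of_isU hU hd hr
  rw [h1, pA354_roM]
  simpa [roM354] using h2

theorem pA354_mul_of_isU (M : Matrix (Fin 2) (Fin 2) ℂ) {k : Matrix (Fin 2) (Fin 2) ℂ}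
    (hU : IsU354 k) (hd : k.det = 1) (hr : IsRe354 k) : pA354 (M * k) = pA354 M * pA354 k := by
  obtain ⟨h1, -⟩ := eq_roM354_of_isU hU hd hr
  rw [h1, pA354_mul_roM, pA354_roM]

theorem pA354_of_isU_mul (M : Matrix (Fin 2) (Fin 2) ℂ) {k : Matrix (Fin 2) (Fin 2) ℂ}
    (hU : IsU354 k) (hd : k.det = 1) (hr : IsRe354 k) : pA354 (k * M) = pA354 k * pA354 M := by
  obtain ⟨h1, -⟩ := eq_roM354_of_isU hU hd hr
  rw [h1, pA354_roM_mul, pA354_roM]

/-- `|pA M|² = (frob M + 2 det M) / 4` for a real matrix. -/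
theorem normSq_pA354 {M : Matrix (Fin 2) (Fin 2) ℂ} (hr : IsRe354 M) :
    Complex.normSq (pA354 M) = (frob907 M + 2 * M.det.re) / 4 := by
  have e00 : (M 0 0).im = 0 := hr 0 0
  have e01 : (M 0 1).im = 0 := hr 0 1
  have e10 : (M 1 0).im = 0 := hr 1 0
  have e11 : (M 1 1).im = 0 := hr 1 1
  rw [frob907_eq, Matrix.det_fin_two]
  unfold pA354
  rw [Complex.normSq_div]
  simp only [Complex.normSq_apply, Complex.add_re, Complex.add_im, Complex.sub_re, Complex.sub_im,
    Complex.mul_re, Complex.mul_im, Complex.I_re, Complex.I_im, e00, e01, e10, e11,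
    Complex.re_ofNat, Complex.im_ofNat]
  ring

/-- Inversion: `pA (M⁻¹) = conj (pA M) / det M` for a real matrix. -/
theorem pA354_inv {M N : Matrix (Fin 2) (Fin 2) ℂ} (hr : IsRe354 M) (h : M * N = 1) :
    pA354 N * M.det = conj (pA354 M) := by
  have hdet : M.det * N.det = 1 := by rw [← Matrix.det_mul, h, Matrix.det_one]
  have hM : M.det ≠ 0 := left_ne_zero_of_mul_eq_one hdet
  have hN : N = M⁻¹ := (Matrix.inv_eq_right_inv h).symm
  have hNe : ∀ i j, N i j = M.det⁻¹ * (Matrix.adjugate M) i j := by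
    intro i j
    rw [hN, Matrix.inv_def, Matrix.smul_apply, smul_eq_mul, Ring.inverse_eq_inv']
  unfold pA354
  rw [hNe, hNe, hNe, hNe, Matrix.adjugate_fin_two]
  simp only [Matrix.of_apply, Matrix.cons_val', Matrix.cons_val_zero, Matrix.cons_val_one,
    Matrix.cons_val_fin_one, map_div₀, map_add, map_mul, map_sub, Complex.conj_I, hr.conj_eq]
  have h2 : conj (2 : ℂ) = 2 := map_ofNat _ 2
  rw [h2]
  field_simp
  ring

/-! ## The normalised phases -/

/-- The phase at a real place. -/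
def ptR354 (M : Matrix (Fin 2) (Fin 2) ℂ) : ℂ :=
  pA354 M / ((Real.sqrt (frob907 M / 2) : ℝ) : ℂ)

/-- The phase at a complex place. -/
def ptC354 (M : Matrix (Fin 2) (Fin 2) ℂ) : ℂ :=
  M.det / ((frob907 M / 2 : ℝ) : ℂ)

theorem frob907_pos_of_det {M : Matrix (Fin 2) (Fin 2) ℂ} (h : M.det ≠ 0) : 0 < frob907 M := by
  have h1 := two_norm_det_le_frob907 M
  have h2 : 0 < ‖M.det‖ := norm_pos_iff.2 h
  linarith

theorem frob907_one : frob907 (1 : Matrix (Fin 2) (Fin 2) ℂ) = 2 := by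
  rw [frob907_eq]
  simp
  norm_num

theorem ptR354_one : ptR354 1 = 1 := by
  unfold ptR354
  rw [pA354_one, frob907_one]
  simp

theorem ptC354_one : ptC354 1 = 1 := by
  unfold ptC354
  rw [Matrix.det_one, frob907_one]
  simp

theorem ptR354_mul_of_isU (M : Matrix (Fin 2) (Fin 2) ℂ) {k : Matrix (Fin 2) (Fin 2) ℂ}
    (hU : IsU354 k) (hd : k.det = 1) (hr : IsRe354 k) : ptR354 (M * k) = ptR354 M * pA354 k := by
  unfold ptR354
  rw [pA354_mul_of_isU M hU hd hr, frob907_mul_unitary M hU]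
  ring

theorem ptR354_of_isU_mul (M : Matrix (Fin 2) (Fin 2) ℂ) {k : Matrix (Fin 2) (Fin 2) ℂ}
    (hU : IsU354 k) (hd : k.det = 1) (hr : IsRe354 k) : ptR354 (k * M) = ptR354 M * pA354 k := by
  unfold ptR354
  rw [pA354_of_isU_mul M hU hd hr, frob907_unitary_mul M hU]
  ring

theorem ptC354_mul_of_isU (M : Matrix (Fin 2) (Fin 2) ℂ) {k : Matrix (Fin 2) (Fin 2) ℂ}
    (hU : IsU354 k) : ptC354 (M * k) = ptC354 M * k.det := by
  unfold ptC354
  rw [Matrix.det_mul, frob907_mul_unitary M hU]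
  ring

theorem ptC354_of_isU_mul (M : Matrix (Fin 2) (Fin 2) ℂ) {k : Matrix (Fin 2) (Fin 2) ℂ}
    (hU : IsU354 k) : ptC354 (k * M) = ptC354 M * k.det := by
  unfold ptC354
  rw [Matrix.det_mul, frob907_unitary_mul M hU]
  ring

theorem norm_ptC354_le (M : Matrix (Fin 2) (Fin 2) ℂ) : ‖ptC354 M‖ ≤ 1 := by
  unfold ptC354
  rw [norm_div, Complex.norm_real, Real.norm_eq_abs, abs_of_nonneg (by
    have := frob907_nonneg M; positivity)]
  have h1 := two_norm_det_le_frob907 M
  by_cases h : frob907 M = 0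
  · rw [h]; simp
  · have hp : 0 < frob907 M := lt_of_le_of_ne (frob907_nonneg M) (Ne.symm h)
    rw [div_le_one (by positivity)]
    linarith

theorem norm_ptR354_le {M : Matrix (Fin 2) (Fin 2) ℂ} (hr : IsRe354 M) : ‖ptR354 M‖ ≤ 1 := by
  unfold ptR354
  rw [norm_div, Complex.norm_real, Real.norm_eq_abs, abs_of_nonneg (Real.sqrt_nonneg _)]
  by_cases h : frob907 M = 0
  · rw [h]; simp
  · have hp : 0 < frob907 M := lt_of_le_of_ne (frob907_nonneg M) (Ne.symm h)
    have hs : 0 < Real.sqrt (frob907 M / 2) := Real.sqrt_pos.2 (by positivity)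
    rw [div_le_one hs]
    apply Real.le_sqrt_of_sq_le
    rw [← Complex.normSq_eq_norm_sq, normSq_pA354 hr]
    have h1 := two_norm_det_le_frob907 M
    have h2 : M.det.re ≤ ‖M.det‖ := Complex.re_le_norm _
    linarith

/-- Inversion at a complex place. -/
theorem ptC354_inv {M N : Matrix (Fin 2) (Fin 2) ℂ} (h : M * N = 1) :
    ptC354 N = conj (ptC354 M) := by
  have hdet : M.det * N.det = 1 := by rw [← Matrix.det_mul, h, Matrix.det_one]
  have hM : M.det ≠ 0 := left_ne_zero_of_mul_eq_one hdet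
  have hf := frob907_inv h
  have hfM := frob907_pos_of_det hM
  have hnM : 0 < ‖M.det‖ := norm_pos_iff.2 hM
  have hfN : frob907 N = frob907 M / ‖M.det‖ ^ 2 := by
    rw [← hf]; field_simp
  have hNd : N.det = M.det⁻¹ := eq_inv_of_mul_eq_one_right hdet
  unfold ptC354
  rw [map_div₀, Complex.conj_ofReal, hfN, hNd]
  have hcc : (M.det) * conj M.det = ((‖M.det‖ ^ 2 : ℝ) : ℂ) := by
    rw [Complex.mul_conj, Complex.normSq_eq_norm_sq]
  have hfc : ((frob907 M : ℝ) : ℂ) ≠ 0 := by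
    rw [Ne, Complex.ofReal_eq_zero]; exact hfM.ne'
  have hnc : ((‖M.det‖ : ℝ) : ℂ) ≠ 0 := by
    rw [Ne, Complex.ofReal_eq_zero]; exact hnM.ne'
  push_cast at hcc ⊢
  field_simp
  linear_combination (-1 : ℂ) * hcc

/-- Inversion at a real place, for a matrix of positive determinant. -/
theorem ptR354_inv {M N : Matrix (Fin 2) (Fin 2) ℂ} (hr : IsRe354 M) (h : M * N = 1)
    (hpos : 0 < M.det.re) : ptR354 N = conj (ptR354 M) := by
  have hdet : M.det * N.det = 1 := by rw [← Matrix.det_mul, h, Matrix.det_one]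
  have hM : M.det ≠ 0 := left_ne_zero_of_mul_eq_one hdet
  have hf := frob907_inv h
  have hfM := frob907_pos_of_det hM
  have hdr : M.det = ((M.det.re : ℝ) : ℂ) := Complex.ext (by simp) (by simpa using hr.det_im)
  have hnM : ‖M.det‖ = M.det.re := by
    rw [hdr, Complex.norm_real, Real.norm_eq_abs, abs_of_pos (by simpa using hpos)]
    simp
  have hfN : frob907 N / 2 = frob907 M / 2 / M.det.re ^ 2 := by
    rw [← hf, hnM]; field_simp
  have hsq : Real.sqrt (frob907 N / 2) = Real.sqrt (frob907 M / 2) / M.det.re := by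
    rw [hfN, Real.sqrt_div (by positivity), Real.sqrt_sq hpos.le]
  have hpa := pA354_inv hr h
  unfold ptR354
  rw [map_div₀, Complex.conj_ofReal, hsq, ← hpa]
  have hs : 0 < Real.sqrt (frob907 M / 2) := Real.sqrt_pos.2 (by positivity)
  have hsc : ((Real.sqrt (frob907 M / 2) : ℝ) : ℂ) ≠ 0 := by
    rw [Ne, Complex.ofReal_eq_zero]; exact hs.ne'
  have hdc : ((M.det.re : ℝ) : ℂ) ≠ 0 := by
    rw [Ne, Complex.ofReal_eq_zero]; exact hpos.ne'
  rw [hdr]
  push_cast
  simp only [Complex.ofReal_re]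
  field_simp

/-! ## Powers -/

/-- `z ^ n` for `n ≥ 0`, `(conj z) ^ (-n)` for `n < 0`. -/
def zp354 (z : ℂ) (n : ℤ) : ℂ :=
  if 0 ≤ n then z ^ n.toNat else (conj z) ^ (-n).toNat

theorem zp354_one (n : ℤ) : zp354 1 n = 1 := by
  unfold zp354
  split_ifs <;> simp

theorem zp354_conj (z : ℂ) (n : ℤ) : zp354 (conj z) n = conj (zp354 z n) := by
  unfold zp354
  split_ifs <;> simp

theorem norm_zp354_le {z : ℂ} (hz : ‖z‖ ≤ 1) (n : ℤ) : ‖zp354 z n‖ ≤ 1 := by
  unfold zp354
  split_ifs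
  · rw [norm_pow]; exact pow_le_one₀ (norm_nonneg _) hz
  · rw [norm_pow, RCLike.norm_conj]; exact pow_le_one₀ (norm_nonneg _) hz

/-- For `ζ` of absolute value one, `zp354 ζ n = ζ ^ n`. -/
theorem zp354_of_norm_one {ζ : ℂ} (hζ : ‖ζ‖ = 1) (n : ℤ) : zp354 ζ n = ζ ^ n := by
  have hc : conj ζ = ζ⁻¹ := by
    have h0 : ζ ≠ 0 := by
      intro h; rw [h, norm_zero] at hζ; exact zero_ne_one hζ
    have h1 : ζ * conj ζ = 1 := by
      rw [Complex.mul_conj, Complex.normSq_eq_norm_sq, hζ]; simp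
    exact eq_inv_of_mul_eq_one_right h1
  unfold zp354
  split_ifs with h
  · conv_rhs => rw [← Int.toNat_of_nonneg h]
    rw [zpow_natCast]
  · have h' : 0 ≤ -n := by omega
    have e : n = -((-n).toNat : ℤ) := by rw [Int.toNat_of_nonneg h']; ring
    conv_rhs => rw [e]
    rw [_root_.zpow_neg, zpow_natCast, hc, inv_pow]

theorem zp354_mul (z ζ : ℂ) (n : ℤ) : zp354 (z * ζ) n = zp354 z n * zp354 ζ n := by
  unfold zp354
  split_ifs
  · rw [mul_pow]
  · rw [map_mul, mul_pow]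

end Fermat.Agent.LT.T2.H354

end
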