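import Mathlib
import Fermat.Agent.LT.T2.SpecTau
import Fermat.Agent.LT.T2.H907.Defect
import Fermat.Agent.LT.T2.H354.Phase

/-!
# Row LT, tower T2, leaf T2.26 (helper354): classification of the `K_∞`-types

For `τ` with `T2.IsKType τ` and an infinite place `w` there is an integer `n` with
`τ k = (pA354 (infComp w k)) ^ n` (`w` real, `k ∈ SO(2)`), resp. `τ k = (det (infComp w k)) ^ n`
(`w` complex, `k ∈ U(2)`), for every `k` with `IsArchCompact w k`.
-/

set_option autoImplicit false
set_option linter.unusedSectionVars false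

open IsDedekindDomain NumberField Matrix
open scoped MatrixGroups Classical

noncomputable section

namespace Fermat.Agent.LT.T2.H354

open Fermat.Agent.LT.H556.A0 Fermat.Agent.LT.T8.H864 Fermat.Agent.LT.T2 Fermat.Agent.LT.T2.H907

variable {K : Type} [Field K] [NumberField K]

local notation "conj" => starRingEnd ℂ

/-! ## Generalities -/

/-- At a real place the archimedean component is a real matrix. -/
theorem isRe354_infComp {w : InfinitePlace K} (hw : w.IsReal) (g : G K) :
    IsRe354 (infComp w g) := by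
  intro i j
  unfold infComp
  rw [← InfinitePlace.Completion.extensionEmbeddingOfIsReal_apply hw]
  exact Complex.ofReal_im _

theorem infCompHom_eq_of_infComp354 {w : InfinitePlace K} {k k' : G K}
    (h : infComp w k = infComp w k') : infCompHom w k = infCompHom w k' := by
  rw [infComp_eq_infCompHom, infComp_eq_infCompHom] at h
  refine Units.ext ?_
  exact Matrix.map_injective (InfinitePlace.Completion.extensionEmbedding w).injective h

/-- Two elements supported at `w` with the same component at `w` are equal. -/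
theorem eq_of_isLocalAtInf354 {w : InfinitePlace K} {k k' : G K} (hk : IsLocalAtInf w k)
    (hk' : IsLocalAtInf w k') (h : infComp w k = infComp w k') : k = k' := by
  refine G_ext (fun w' => ?_) (fun v => ?_)
  · by_cases hw : w' = w
    · subst hw
      exact infCompHom_eq_of_infComp354 h
    · rw [(trivAtInf_iff_hom w' k).1 (hk.1 w' hw), (trivAtInf_iff_hom w' k').1 (hk'.1 w' hw)]
  · rw [(trivAtFin_iff_hom v k).1 (hk.2 v), (trivAtFin_iff_hom v k').1 (hk'.2 v)]

theorem isLocalAtInf_one354 (w : InfinitePlace K) : IsLocalAtInf w (1 : G K) := by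
  refine ⟨fun w' _ => ?_, fun v => ?_⟩
  · rw [trivAtInf_iff_hom, map_one]
  · rw [trivAtFin_iff_hom, map_one]

theorem isArchCompact_one354 (w : InfinitePlace K) : IsArchCompact w (1 : G K) := by
  refine ⟨isLocalAtInf_one354 w, ?_, fun _ => ?_⟩
  · rw [infComp_one]; simp
  · rw [infComp_one]; simp

theorem map_one_of_isKType354 {τ : G K → ℂ} (hτ : IsKType τ) : τ 1 = 1 := by
  obtain ⟨w⟩ : Nonempty (InfinitePlace K) := inferInstance
  have h1 := hτ.mul w 1 1 (isArchCompact_one354 w) (isArchCompact_one354 w)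
  rw [mul_one] at h1
  have h2 := hτ.norm_one w 1 (isArchCompact_one354 w)
  have h0 : τ 1 ≠ 0 := by
    intro h; rw [h, norm_zero] at h2; exact zero_ne_one h2
  have : τ 1 * (τ 1 - 1) = 0 := by linear_combination -h1
  rcases mul_eq_zero.1 this with h | h
  · exact absurd h h0
  · linear_combination h

/-! ## Real places -/

/-- The real rotation matrix of angle `θ`. -/
def rotM354 (θ : ℝ) : Matrix (Fin 2) (Fin 2) ℝ :=
  !![Real.cos θ, -Real.sin θ; Real.sin θ, Real.cos θ]

theorem rotM354_mul (θ θ' : ℝ) : rotM354 θ * rotM354 θ' = rotM354 (θ + θ') := by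
  ext i j
  fin_cases i <;> fin_cases j <;>
    simp [rotM354, Matrix.mul_apply, Fin.sum_univ_two, Real.cos_add, Real.sin_add] <;> ring

theorem rotM354_zero : rotM354 0 = 1 := by
  ext i j
  fin_cases i <;> fin_cases j <;> simp [rotM354]

theorem rotM354_two_pi : rotM354 (2 * Real.pi) = 1 := by
  ext i j
  fin_cases i <;> fin_cases j <;> simp [rotM354]

/-- The rotation of angle `θ` in `GL₂(ℝ)`. -/
def rotGL354 (θ : ℝ) : GL (Fin 2) ℝ :=
  ⟨rotM354 θ, rotM354 (-θ), by rw [rotM354_mul, add_neg_cancel, rotM354_zero],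
    by rw [rotM354_mul, neg_add_cancel, rotM354_zero]⟩

theorem rotGL354_add (θ θ' : ℝ) : rotGL354 (θ + θ') = rotGL354 θ * rotGL354 θ' :=
  Units.ext (rotM354_mul θ θ').symm

theorem rotGL354_zero : rotGL354 0 = 1 := Units.ext rotM354_zero

theorem rotGL354_two_pi : rotGL354 (2 * Real.pi) = 1 := Units.ext rotM354_two_pi

theorem continuous_rotM354 : Continuous rotM354 := by
  refine continuous_matrix fun i j => ?_
  fin_cases i <;> fin_cases j
  · simpa [rotM354] using Real.continuous_cos
  · have : Continuous fun θ : ℝ => -Real.sin θ := Real.continuous_sin.neg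
    simpa [rotM354] using this
  · simpa [rotM354] using Real.continuous_sin
  · simpa [rotM354] using Real.continuous_cos

theorem continuous_rotGL354 : Continuous rotGL354 := by
  rw [Units.continuous_iff]
  refine ⟨continuous_rotM354, ?_⟩
  exact continuous_rotM354.comp continuous_neg

theorem map_rotM354 (θ : ℝ) :
    (rotM354 θ).map (fun r : ℝ => (r : ℂ)) = roM354 (Real.cos θ) (Real.sin θ) := by
  ext i j
  fin_cases i <;> fin_cases j <;> simp [rotM354, roM354]

theorem isU354_roM_real {a b : ℝ} (h : a ^ 2 + b ^ 2 = 1) : IsU354 (roM354 (a : ℂ) (b : ℂ)) := by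
  have e : roM354 (a : ℂ) (b : ℂ) = suM354 (a : ℂ) (b : ℂ) := by
    unfold roM354 suM354
    rw [Complex.conj_ofReal, Complex.conj_ofReal]
  rw [e]
  refine isU354_suM ?_
  rw [Complex.conj_ofReal, Complex.conj_ofReal]
  have : ((a ^ 2 + b ^ 2 : ℝ) : ℂ) = 1 := by rw [h]; simp
  push_cast at this
  linear_combination this

theorem det_roM354 (a b : ℂ) : (roM354 a b).det = a ^ 2 + b ^ 2 := by
  rw [Matrix.det_fin_two]
  simp only [roM354, Matrix.of_apply, Matrix.cons_val', Matrix.cons_val_zero, Matrix.cons_val_one,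
    Matrix.cons_val_fin_one]
  ring

/-- The rotation of angle `θ` at the real place `w`. -/
def kRot354 {w : InfinitePlace K} (hw : w.IsReal) (θ : ℝ) : G K := locInfReal hw (rotGL354 θ)

theorem infComp_kRot354 {w : InfinitePlace K} (hw : w.IsReal) (θ : ℝ) :
    infComp w (kRot354 hw θ) = roM354 (Real.cos θ) (Real.sin θ) := by
  unfold kRot354
  rw [infComp_locInfReal]
  exact map_rotM354 θ

theorem isArchCompact_kRot354 {w : InfinitePlace K} (hw : w.IsReal) (θ : ℝ) :
    IsArchCompact w (kRot354 hw θ) := by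
  refine ⟨isLocalAtInf_locInfReal hw _, ?_, fun _ => ?_⟩
  · rw [infComp_kRot354]
    exact isU354_roM_real (by rw [Real.cos_sq_add_sin_sq])
  · rw [infComp_kRot354, det_roM354]
    have : ((Real.cos θ ^ 2 + Real.sin θ ^ 2 : ℝ) : ℂ) = 1 := by
      rw [Real.cos_sq_add_sin_sq]; simp
    rw [Complex.ofReal_add, Complex.ofReal_pow, Complex.ofReal_pow] at this
    exact this

/-- **Classification at a real place.** -/
theorem ktype_real354 {τ : G K → ℂ} (hτ : IsKType τ) {w : InfinitePlace K} (hw : w.IsReal) :
    ∃ n : ℤ, ∀ k : G K, IsArchCompact w k → τ k = pA354 (infComp w k) ^ n := by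
  set χ : ℝ → ℂ := fun θ => τ (kRot354 hw θ) with hχ
  have hχc : Continuous χ := by
    have h1 : Continuous fun θ : ℝ => kRot354 (K := K) hw θ :=
      (continuous_locInfReal hw).comp continuous_rotGL354
    exact (hτ.cont w).comp_continuous h1 fun θ => isArchCompact_kRot354 hw θ
  have hχ0 : χ 0 = 1 := by
    rw [hχ]
    simp only
    unfold kRot354
    rw [rotGL354_zero, map_one]
    exact map_one_of_isKType354 hτ
  have hχm : ∀ s t, χ (s + t) = χ s * χ t := by
    intro s t
    rw [hχ]
    simp only
    rw [← hτ.mul w _ _ (isArchCompact_kRot354 hw s) (isArchCompact_kRot354 hw t)]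
    unfold kRot354
    rw [rotGL354_add, map_mul]
  have hχp : χ (2 * Real.pi) = 1 := by
    rw [hχ]
    simp only
    unfold kRot354
    rw [rotGL354_two_pi, map_one]
    exact map_one_of_isKType354 hτ
  obtain ⟨n, hn⟩ := char_periodic354 χ hχc hχ0 hχm hχp
  refine ⟨n, fun k hk => ?_⟩
  obtain ⟨hloc, hU, hdet⟩ := hk
  have hre := isRe354_infComp hw k
  obtain ⟨hform, hnorm⟩ := eq_roM354_of_isU hU (hdet hw) hre
  set z : ℂ := infComp w k 0 0 + Complex.I * infComp w k 1 0 with hz
  set θ : ℝ := Complex.arg z with hθ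
  have hexp : Complex.exp (θ * Complex.I) = z := by
    have := Complex.norm_mul_exp_arg_mul_I z
    rw [hnorm, Complex.ofReal_one, one_mul] at this
    exact this
  have e0 : (infComp w k 0 0).im = 0 := hre 0 0
  have e1 : (infComp w k 1 0).im = 0 := hre 1 0
  have hc : infComp w k 0 0 = ((Real.cos θ : ℝ) : ℂ) := by
    have h1 := congrArg Complex.re hexp
    rw [Complex.exp_ofReal_mul_I_re, hz] at h1
    simp only [Complex.add_re, Complex.mul_re, Complex.I_re, Complex.I_im, e1] at h1
    refine Complex.ext ?_ ?_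
    · rw [Complex.ofReal_re]; linarith
    · rw [Complex.ofReal_im]; exact e0
  have hs : infComp w k 1 0 = ((Real.sin θ : ℝ) : ℂ) := by
    have h1 := congrArg Complex.im hexp
    rw [Complex.exp_ofReal_mul_I_im, hz] at h1
    simp only [Complex.add_im, Complex.mul_im, Complex.I_re, Complex.I_im, e0] at h1
    refine Complex.ext ?_ ?_
    · rw [Complex.ofReal_re]; linarith
    · rw [Complex.ofReal_im]; exact e1
  have hk' : k = kRot354 hw θ := by
    refine eq_of_isLocalAtInf354 hloc (isLocalAtInf_locInfReal hw _) ?_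
    rw [infComp_kRot354, ← hc, ← hs]
    exact hform
  have hpa : pA354 (infComp w k) = z := by
    rw [hform, pA354_roM]
  calc τ k = χ θ := by rw [hχ]; simp only; rw [← hk']
    _ = Complex.exp (θ * Complex.I) ^ n := hn θ
    _ = pA354 (infComp w k) ^ n := by rw [hexp, hpa]

/-! ## Complex places -/

/-- The complex numbers inside the completion at a complex place. -/
def cpxHom354 {w : InfinitePlace K} (hw : w.IsComplex) : ℂ →+* w.Completion :=
  (InfinitePlace.Completion.ringEquivComplexOfIsComplex hw).symm.toRingHom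

theorem extensionEmbedding_cpxHom354 {w : InfinitePlace K} (hw : w.IsComplex) (z : ℂ) :
    InfinitePlace.Completion.extensionEmbedding w (cpxHom354 hw z) = z := by
  rw [← InfinitePlace.Completion.ringEquivComplexOfIsComplex_apply hw]
  exact (InfinitePlace.Completion.ringEquivComplexOfIsComplex hw).apply_symm_apply z

theorem continuous_cpxHom354 {w : InfinitePlace K} (hw : w.IsComplex) :
    Continuous (cpxHom354 hw) :=
  (InfinitePlace.Completion.isometryEquivComplexOfIsComplex hw).symm.continuous

/-- The local element at the complex place `w` given by a complex matrix. -/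
def locInfCpx354 {w : InfinitePlace K} (hw : w.IsComplex) : GL (Fin 2) ℂ →* G K :=
  (locInf w).comp (Matrix.GeneralLinearGroup.map (cpxHom354 hw))

theorem isLocalAtInf_locInfCpx354 {w : InfinitePlace K} (hw : w.IsComplex) (m : GL (Fin 2) ℂ) :
    IsLocalAtInf w (locInfCpx354 hw m) := isLocalAtInf_locInf w _

theorem infComp_locInfCpx354 {w : InfinitePlace K} (hw : w.IsComplex) (m : GL (Fin 2) ℂ) :
    infComp w (locInfCpx354 hw m) = (m : Matrix (Fin 2) (Fin 2) ℂ) := by
  unfold locInfCpx354
  rw [MonoidHom.comp_apply, infComp_locInf_self]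
  refine Matrix.ext fun i j => ?_
  exact extensionEmbedding_cpxHom354 hw _

theorem continuous_locInfCpx354 {w : InfinitePlace K} (hw : w.IsComplex) :
    Continuous (locInfCpx354 (K := K) hw) := by
  have h : Continuous (Matrix.GeneralLinearGroup.map (n := Fin 2) (cpxHom354 hw)) := by
    unfold Matrix.GeneralLinearGroup.map
    apply Continuous.units_map
    exact Continuous.matrix_map continuous_id (continuous_cpxHom354 hw)
  exact (continuous_locInf w).comp h

/-- A unitary matrix as an element of `GL₂(ℂ)`. -/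
def uGL354 (M : Matrix (Fin 2) (Fin 2) ℂ) (h : IsU354 M) : GL (Fin 2) ℂ :=
  ⟨M, Mᴴ, h, h.conjTranspose_mul⟩

/-- The local element at the complex place `w` given by a unitary matrix (`1` for the other
matrices). -/
def iotaC354 {w : InfinitePlace K} (hw : w.IsComplex) (M : Matrix (Fin 2) (Fin 2) ℂ) : G K :=
  if h : IsU354 M then locInfCpx354 hw (uGL354 M h) else 1

theorem iotaC354_of_isU {w : InfinitePlace K} (hw : w.IsComplex)
    {M : Matrix (Fin 2) (Fin 2) ℂ} (h : IsU354 M) :
    iotaC354 (K := K) hw M = locInfCpx354 hw (uGL354 M h) := dif_pos h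

theorem infComp_iotaC354 {w : InfinitePlace K} (hw : w.IsComplex)
    {M : Matrix (Fin 2) (Fin 2) ℂ} (h : IsU354 M) : infComp w (iotaC354 (K := K) hw M) = M := by
  rw [iotaC354_of_isU hw h, infComp_locInfCpx354]
  rfl

theorem isArchCompact_iotaC354 {w : InfinitePlace K} (hw : w.IsComplex)
    {M : Matrix (Fin 2) (Fin 2) ℂ} (h : IsU354 M) : IsArchCompact w (iotaC354 (K := K) hw M) := by
  refine ⟨?_, ?_, fun hr => ?_⟩
  · rw [iotaC354_of_isU hw h]
    exact isLocalAtInf_locInfCpx354 hw _
  · rw [infComp_iotaC354 hw h]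
    exact h
  · exact absurd hr (InfinitePlace.not_isReal_iff_isComplex.2 hw)

theorem iotaC354_mul {w : InfinitePlace K} (hw : w.IsComplex)
    {M N : Matrix (Fin 2) (Fin 2) ℂ} (hM : IsU354 M) (hN : IsU354 N) :
    iotaC354 (K := K) hw (M * N) = iotaC354 hw M * iotaC354 hw N := by
  rw [iotaC354_of_isU hw hM, iotaC354_of_isU hw hN, iotaC354_of_isU hw (hM.mul hN), ← map_mul]
  congr 1
  exact Units.ext rfl

theorem continuousOn_iotaC354 {w : InfinitePlace K} (hw : w.IsComplex) :
    ContinuousOn (iotaC354 (K := K) hw) {M | IsU354 M} := by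
  rw [continuousOn_iff_continuous_domRestrict]
  have e : Set.domRestrict {M | IsU354 M} (iotaC354 (K := K) hw)
      = fun x : {M : Matrix (Fin 2) (Fin 2) ℂ | IsU354 M} =>
          locInfCpx354 hw (uGL354 x.1 x.2) := by
    funext x
    exact iotaC354_of_isU hw x.2
  rw [e]
  refine (continuous_locInfCpx354 hw).comp ?_
  rw [Units.continuous_iff]
  refine ⟨continuous_subtype_val, ?_⟩
  exact continuous_subtype_val.matrix_conjTranspose

/-- **Classification at a complex place.** -/
theorem ktype_complex354 {τ : G K → ℂ} (hτ : IsKType τ) {w : InfinitePlace K}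
    (hw : w.IsComplex) :
    ∃ n : ℤ, ∀ k : G K, IsArchCompact w k → τ k = (infComp w k).det ^ n := by
  set T : Matrix (Fin 2) (Fin 2) ℂ → ℂ := fun M => τ (iotaC354 hw M) with hT
  have hmul : ∀ M N, IsU354 M → IsU354 N → T (M * N) = T M * T N := by
    intro M N hM hN
    rw [hT]
    simp only
    rw [iotaC354_mul hw hM hN]
    exact hτ.mul w _ _ (isArchCompact_iotaC354 hw hM) (isArchCompact_iotaC354 hw hN)
  have hnorm : ∀ M, IsU354 M → ‖T M‖ = 1 := fun M hM =>
    hτ.norm_one w _ (isArchCompact_iotaC354 hw hM)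
  have hcont : ContinuousOn T {M | IsU354 M} :=
    (hτ.cont w).comp (continuousOn_iotaC354 hw) fun M hM => isArchCompact_iotaC354 hw hM
  obtain ⟨n, hn⟩ := u2_char354 T hmul hnorm hcont
  refine ⟨n, fun k hk => ?_⟩
  have hU : IsU354 (infComp w k) := hk.2.1
  have hk' : k = iotaC354 hw (infComp w k) := by
    refine eq_of_isLocalAtInf354 hk.1 (isArchCompact_iotaC354 hw hU).1 ?_
    rw [infComp_iotaC354 hw hU]
  calc τ k = T (infComp w k) := by rw [hT]; simp only; rw [← hk']
    _ = (infComp w k).det ^ n := hn _ hU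

/-! ## The local character -/

/-- The basic character of the compact group at `w`: `pA` at a real place, `det` at a complex
place. -/
def Ploc354 (w : InfinitePlace K) (M : Matrix (Fin 2) (Fin 2) ℂ) : ℂ :=
  if w.IsReal then pA354 M else M.det

/-- **Classification of the `K_∞`-types.** -/
theorem ktype_class354 {τ : G K → ℂ} (hτ : IsKType τ) :
    ∃ n : InfinitePlace K → ℤ, ∀ (w : InfinitePlace K) (k : G K), IsArchCompact w k →
      τ k = Ploc354 w (infComp w k) ^ n w := by
  have h : ∀ w : InfinitePlace K, ∃ n : ℤ, ∀ k : G K, IsArchCompact w k →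
      τ k = Ploc354 w (infComp w k) ^ n := by
    intro w
    by_cases hw : w.IsReal
    · obtain ⟨n, hn⟩ := ktype_real354 hτ hw
      exact ⟨n, fun k hk => by rw [Ploc354, if_pos hw]; exact hn k hk⟩
    · obtain ⟨n, hn⟩ := ktype_complex354 hτ (InfinitePlace.not_isReal_iff_isComplex.1 hw)
      exact ⟨n, fun k hk => by rw [Ploc354, if_neg hw]; exact hn k hk⟩
  choose n hn using h
  exact ⟨n, hn⟩

end Fermat.Agent.LT.T2.H354

end
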