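import Mathlib
import Fermat.Agent.LT.T2.SpecTau
import Fermat.Agent.LT.T2.H907.TestFn
import Fermat.Agent.LT.T2.H354.KType

/-!
# Row LT, tower T2, leaf T2.26 (helper354): the global phase

`Q354 n g = ∏_w zp354 (ptW354 w g) (n w)`: a continuous function on `GL₂(𝔸_K)`, smooth at infinity,
of absolute value `≤ 1`, with `Q (k₁ g k₂) = τ(k₁) τ(k₂) Q(g)` for `k₁, k₂` in the compact groups
at infinity (`n` = the exponents of the `K_∞`-type `τ`), invariant under the level group, and
`Q (g⁻¹) = conj (Q g)` where the determinants at the real places are positive.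
-/

set_option autoImplicit false
set_option linter.unusedSectionVars false

open IsDedekindDomain NumberField Matrix
open scoped MatrixGroups Classical ContDiff

noncomputable section

namespace Fermat.Agent.LT.T2.H354

open Fermat.Agent.LT.H556.A0 Fermat.Agent.LT.T8.H864 Fermat.Agent.LT.H51.MS4
  Fermat.Agent.LT.T2 Fermat.Agent.LT.T2.H907

variable {K : Type} [Field K] [NumberField K]

local notation "conj" => starRingEnd ℂ

/-! ## The local phases on `GL₂(𝔸_K)` -/

/-- The normalised phase at the infinite place `w`. -/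
def ptW354 (w : InfinitePlace K) (g : G K) : ℂ :=
  if w.IsReal then ptR354 (infComp w g) else ptC354 (infComp w g)

/-- Unitary at every infinite place, of determinant one at the real places. -/
def IsUInf354 (k : G K) : Prop :=
  (∀ w : InfinitePlace K, infComp w k * (infComp w k)ᴴ = 1) ∧
    ∀ w : InfinitePlace K, w.IsReal → (infComp w k).det = 1

theorem isUInf354_of_isArchCompact {w₀ : InfinitePlace K} {k : G K} (hk : IsArchCompact w₀ k) :
    IsUInf354 k :=
  (isStab907_of_isArchCompact (𝔫 := ⊥) hk).2

theorem isUInf354_of_inLevelGroup {𝔫 : Ideal (𝓞 K)} {u : G K} (hu : InLevelGroup 𝔫 u) :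
    IsUInf354 u :=
  (isStab907_of_inLevelGroup hu).2

theorem Ploc354_one (w : InfinitePlace K) : Ploc354 w 1 = 1 := by
  unfold Ploc354
  split_ifs
  · exact pA354_one
  · exact Matrix.det_one

theorem norm_Ploc354 {k : G K} (hk : IsUInf354 k) (w : InfinitePlace K) :
    ‖Ploc354 w (infComp w k)‖ = 1 := by
  unfold Ploc354
  split_ifs with hw
  · exact norm_pA354_of_isU (hk.1 w) (hk.2 w hw) (isRe354_infComp hw k)
  · exact norm_det_of_unitary907 (hk.1 w)

theorem ptW354_mul_right (w : InfinitePlace K) (g : G K) {k : G K} (hk : IsUInf354 k) :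
    ptW354 w (g * k) = ptW354 w g * Ploc354 w (infComp w k) := by
  unfold ptW354 Ploc354
  rw [infComp_mul]
  split_ifs with hw
  · exact ptR354_mul_of_isU _ (hk.1 w) (hk.2 w hw) (isRe354_infComp hw k)
  · exact ptC354_mul_of_isU _ (hk.1 w)

theorem ptW354_mul_left (w : InfinitePlace K) (g : G K) {k : G K} (hk : IsUInf354 k) :
    ptW354 w (k * g) = ptW354 w g * Ploc354 w (infComp w k) := by
  unfold ptW354 Ploc354
  rw [infComp_mul]
  split_ifs with hw
  · exact ptR354_of_isU_mul _ (hk.1 w) (hk.2 w hw) (isRe354_infComp hw k)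
  · exact ptC354_of_isU_mul _ (hk.1 w)

theorem ptW354_one (w : InfinitePlace K) : ptW354 w (1 : G K) = 1 := by
  unfold ptW354
  rw [infComp_one]
  split_ifs
  · exact ptR354_one
  · exact ptC354_one

theorem norm_ptW354_le (w : InfinitePlace K) (g : G K) : ‖ptW354 w g‖ ≤ 1 := by
  unfold ptW354
  split_ifs with hw
  · exact norm_ptR354_le (isRe354_infComp hw g)
  · exact norm_ptC354_le _

theorem ptW354_inv (w : InfinitePlace K) (g : G K)
    (hpos : w.IsReal → 0 < (infComp w g).det.re) : ptW354 w g⁻¹ = conj (ptW354 w g) := by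
  unfold ptW354
  split_ifs with hw
  · exact ptR354_inv (isRe354_infComp hw g) (infComp_mul_inv907 w g) (hpos hw)
  · exact ptC354_inv (infComp_mul_inv907 w g)

theorem frob907_infComp_pos (w : InfinitePlace K) (g : G K) : 0 < frob907 (infComp w g) :=
  frob907_pos_of_det (det_infComp_ne_zero907 w g)

theorem sqrt_frob_ne_zero354 (w : InfinitePlace K) (g : G K) :
    ((Real.sqrt (frob907 (infComp w g) / 2) : ℝ) : ℂ) ≠ 0 := by
  rw [Ne, Complex.ofReal_eq_zero]
  have := frob907_infComp_pos w g
  exact (Real.sqrt_pos.2 (by positivity)).ne'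

theorem frob_half_ne_zero354 (w : InfinitePlace K) (g : G K) :
    ((frob907 (infComp w g) / 2 : ℝ) : ℂ) ≠ 0 := by
  rw [Ne, Complex.ofReal_eq_zero]
  have := frob907_infComp_pos w g
  positivity

theorem continuous_ptW354 (w : InfinitePlace K) : Continuous (ptW354 (K := K) w) := by
  unfold ptW354
  split_ifs with hw
  · unfold ptR354
    refine Continuous.div ?_ ?_ fun g => sqrt_frob_ne_zero354 w g
    · unfold pA354
      exact ((((continuous_infComp907 w 0 0).add (continuous_infComp907 w 1 1)).add
        (continuous_const.mul ((continuous_infComp907 w 1 0).sub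
          (continuous_infComp907 w 0 1)))).div_const 2)
    · exact Complex.continuous_ofReal.comp
        (Real.continuous_sqrt.comp ((continuous_frob907 w).div_const 2))
  · unfold ptC354
    refine Continuous.div (continuous_det907 w) ?_ fun g => frob_half_ne_zero354 w g
    exact Complex.continuous_ofReal.comp ((continuous_frob907 w).div_const 2)

theorem contDiff_div_ofReal354 {m : ℕ} {a : (Fin m → ℝ) → ℂ} {b : (Fin m → ℝ) → ℝ}
    (ha : ContDiff ℝ ∞ a) (hb : ContDiff ℝ ∞ b) (h0 : ∀ t, b t ≠ 0) :
    ContDiff ℝ ∞ (fun t => a t / ((b t : ℝ) : ℂ)) := by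
  have e : (fun t => a t / ((b t : ℝ) : ℂ)) = fun t => a t * (((b t)⁻¹ : ℝ) : ℂ) := by
    funext t
    rw [div_eq_mul_inv, Complex.ofReal_inv]
  rw [e]
  exact ha.mul (Complex.ofRealCLM.contDiff.comp (hb.inv h0))

theorem contDiff_ptW354 {m : ℕ} {h : (Fin m → ℝ) → G K} (g : G K)
    (hh : ∀ (w : InfinitePlace K) (i j : Fin 2), ContDiff ℝ ∞ (fun t => infComp w (h t) i j))
    (w : InfinitePlace K) : ContDiff ℝ ∞ (fun t => ptW354 w (g * h t)) := by
  unfold ptW354
  split_ifs with hw
  · unfold ptR354
    refine contDiff_div_ofReal354 ?_ ?_ fun t => ?_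
    · unfold pA354
      exact ((((contDiff_infComp_mul907 g hh w 0 0).add (contDiff_infComp_mul907 g hh w 1 1)).add
        (contDiff_const.mul ((contDiff_infComp_mul907 g hh w 1 0).sub
          (contDiff_infComp_mul907 g hh w 0 1)))).div_const 2)
    · refine ContDiff.sqrt ((contDiff_frob907 g hh w).div_const 2) fun t => ?_
      have := frob907_infComp_pos w (g * h t)
      positivity
    · have := frob907_infComp_pos w (g * h t)
      exact (Real.sqrt_pos.2 (by positivity)).ne'
  · unfold ptC354
    refine contDiff_div_ofReal354 (contDiff_det907 g hh w) ((contDiff_frob907 g hh w).div_const 2)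
      fun t => ?_
    have := frob907_infComp_pos w (g * h t)
    positivity

/-! ## Powers -/

theorem continuous_zp354 (n : ℤ) : Continuous fun z : ℂ => zp354 z n := by
  unfold zp354
  split_ifs
  · exact continuous_pow _
  · exact (Complex.continuous_conj).pow _

theorem contDiff_zp354 (n : ℤ) : ContDiff ℝ ∞ fun z : ℂ => zp354 z n := by
  unfold zp354
  split_ifs
  · exact contDiff_id.pow _
  · exact (Complex.conjCLE.contDiff).pow _

/-! ## The global phase -/

/-- THE PHASE. -/
def Q354 (n : InfinitePlace K → ℤ) (g : G K) : ℂ := ∏ w, zp354 (ptW354 w g) (n w)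

/-- The character of `K_∞` with exponents `n`. -/
def chi354 (n : InfinitePlace K → ℤ) (k : G K) : ℂ := ∏ w, Ploc354 w (infComp w k) ^ n w

theorem Q354_one (n : InfinitePlace K → ℤ) : Q354 n (1 : G K) = 1 := by
  unfold Q354
  refine Finset.prod_eq_one fun w _ => ?_
  rw [ptW354_one, zp354_one]

theorem norm_Q354_le (n : InfinitePlace K → ℤ) (g : G K) : ‖Q354 n g‖ ≤ 1 := by
  unfold Q354
  rw [norm_prod]
  exact Finset.prod_le_one (fun w _ => norm_nonneg _)
    fun w _ => norm_zp354_le (norm_ptW354_le w g) (n w)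

theorem Q354_mul_right (n : InfinitePlace K → ℤ) (g : G K) {k : G K} (hk : IsUInf354 k) :
    Q354 n (g * k) = Q354 n g * chi354 n k := by
  unfold Q354 chi354
  rw [← Finset.prod_mul_distrib]
  refine Finset.prod_congr rfl fun w _ => ?_
  rw [ptW354_mul_right w g hk, zp354_mul, zp354_of_norm_one (norm_Ploc354 hk w)]

theorem Q354_mul_left (n : InfinitePlace K → ℤ) (g : G K) {k : G K} (hk : IsUInf354 k) :
    Q354 n (k * g) = Q354 n g * chi354 n k := by
  unfold Q354 chi354
  rw [← Finset.prod_mul_distrib]
  refine Finset.prod_congr rfl fun w _ => ?_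
  rw [ptW354_mul_left w g hk, zp354_mul, zp354_of_norm_one (norm_Ploc354 hk w)]

theorem chi354_of_isArchCompact {τ : G K → ℂ} {n : InfinitePlace K → ℤ}
    (hn : ∀ (w : InfinitePlace K) (k : G K), IsArchCompact w k →
      τ k = Ploc354 w (infComp w k) ^ n w)
    {w₀ : InfinitePlace K} {k : G K} (hk : IsArchCompact w₀ k) : chi354 n k = τ k := by
  unfold chi354
  rw [Finset.prod_eq_single w₀, ← hn w₀ k hk]
  · intro w _ hw
    rw [infComp_eq_one_of_trivAtInf (hk.1.1 w hw), Ploc354_one, _root_.one_zpow]
  · intro h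
    exact absurd (Finset.mem_univ _) h

theorem chi354_of_inLevelGroup (n : InfinitePlace K → ℤ) {𝔫 : Ideal (𝓞 K)} {u : G K}
    (hu : InLevelGroup 𝔫 u) : chi354 n u = 1 := by
  unfold chi354
  refine Finset.prod_eq_one fun w _ => ?_
  rw [infComp_eq_one_of_trivAtInf (hu.1 w), Ploc354_one, _root_.one_zpow]

theorem Q354_inv (n : InfinitePlace K → ℤ) (g : G K)
    (hpos : ∀ w : InfinitePlace K, w.IsReal → 0 < (infComp w g).det.re) :
    Q354 n g⁻¹ = conj (Q354 n g) := by
  unfold Q354
  rw [map_prod]
  refine Finset.prod_congr rfl fun w _ => ?_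
  rw [ptW354_inv w g (hpos w), zp354_conj]

theorem continuous_Q354 (n : InfinitePlace K → ℤ) : Continuous (Q354 (K := K) n) := by
  unfold Q354
  exact continuous_finsetProd _ fun w _ => (continuous_zp354 (n w)).comp (continuous_ptW354 w)

theorem contDiff_Q354 (n : InfinitePlace K → ℤ) {m : ℕ} {h : (Fin m → ℝ) → G K} (g : G K)
    (hh : ∀ (w : InfinitePlace K) (i j : Fin 2), ContDiff ℝ ∞ (fun t => infComp w (h t) i j)) :
    ContDiff ℝ ∞ (fun t => Q354 n (g * h t)) := by
  unfold Q354
  exact contDiff_prod fun w _ => (contDiff_zp354 (n w)).comp (contDiff_ptW354 g hh w)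

/-- Positivity of the determinants at the real places where the defect is `< 1`. -/
theorem det_re_pos_of_defect354 {g : G K} (h : defect907 g < 1) {w : InfinitePlace K}
    (hw : w.IsReal) : 0 < (infComp w g).det.re := by
  have h1 := sig907_le_defect w g
  unfold sig907 at h1
  rw [if_pos hw] at h1
  have hd := dW907_pos w g
  have h2 : 0 < (infComp w g).det.re / dW907 w g := by linarith
  by_contra hcon
  rw [not_lt] at hcon
  have := div_nonpos_of_nonpos_of_nonneg hcon hd.le
  linarith

end Fermat.Agent.LT.T2.H354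

end
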