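import Mathlib
import Fermat.Agent.LT.T2.SpecTau
import Fermat.Agent.LT.T2.H907.Leaf06
import Fermat.Agent.LT.T2.H354.PhaseG

/-!
# Row LT, tower T2, leaf T2.26 (helper354): `ApproxIdT` (class of T5)

`leafT06_h354 : T2.LeafT06 K` (frozen Prop of `Fermat/Agent/LT/T2/SpecTau.lean`, sha256 4d2b0fc2):
for a `K_∞`-type `τ`, every cusp function `φ` of the class `(𝔫, τ, r)` is an `L²`-limit of
`R(f) φ`, `f` spherical of type `τ` and self-adjoint.

Proof.  The `K_∞`-type is `τ = ∏_w P_w ^ {n_w}` (`KType.lean`: continuous characters of `SO(2)`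
and of `U(2)`).  `f_k = conj (Q) · c_k · bump907 𝔫 (1/(k+1))`, with `Q` the global phase of
`PhaseG.lean` and the bump functions of helper907 (leaf T2.06).  For fixed `x` the function
`ψ_x (g) = φ (x g) conj (Q g)` is right invariant under the level group and under the compact groups
at infinity, and `R(f_k) φ (x) - φ (x) = R(c_k bump) ψ_x (1) - ψ_x (1)`: the two analytic lemmas of
helper907 (`exists_close907`, `norm_conv_sub_le907`) apply to `ψ_x` at the point `1`.
-/

set_option autoImplicit false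
set_option linter.unusedSectionVars false

open IsDedekindDomain NumberField Matrix MeasureTheory Filter Topology
open scoped MatrixGroups Classical ContDiff

noncomputable section

namespace Fermat.Agent.LT.T2.H354

open Fermat.Agent.LT.H556.A0 Fermat.Agent.LT.T8.H864 Fermat.Agent.LT.H51.MS4
  Fermat.Agent.LT.T2 Fermat.Agent.LT.T2.H907

attribute [local instance] Fermat.Agent.LT.T2.borelG

variable {K : Type} [Field K] [NumberField K]

local notation "conj" => starRingEnd ℂ

theorem conj_eq_inv354 {z : ℂ} (hz : ‖z‖ = 1) : conj z = z⁻¹ := by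
  have h1 : z * conj z = 1 := by
    rw [Complex.mul_conj, Complex.normSq_eq_norm_sq, hz]; simp
  exact eq_inv_of_mul_eq_one_right h1

/-! ## The twisted test functions -/

/-- The test function `conj (Q) · f₀`. -/
def testT354 (n : InfinitePlace K → ℤ) (f₀ : G K → ℂ) (g : G K) : ℂ := conj (Q354 n g) * f₀ g

section Test

variable {𝔫 : Ideal (𝓞 K)} {τ : G K → ℂ} {n : InfinitePlace K → ℤ}

theorem isTestT_testT354 (h𝔫 : 𝔫 ≠ ⊥) (hτ : IsKType τ)
    (hn : ∀ (w : InfinitePlace K) (k : G K), IsArchCompact w k →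
      τ k = Ploc354 w (infComp w k) ^ n w)
    {η : ℝ} (hη : 0 < η) (hη1 : η ≤ 1) (c : ℝ) :
    IsTestT 𝔫 τ (testT354 n (testFn907 𝔫 η c)) := by
  have h0 := isTestFn_testFn907 h𝔫 hη hη1 c
  refine ⟨?_, ?_, ?_, ?_, ?_, ?_, ?_⟩
  · exact (Complex.continuous_conj.comp (continuous_Q354 n)).mul h0.cont
  · intro m h hfin hh g
    exact (Complex.conjCLE.contDiff.comp (contDiff_Q354 n g hh)).mul (h0.smooth m h hfin hh g)
  · exact h0.cpt.mul_left
  · intro u hu g
    unfold testT354
    rw [Q354_mul_right n g (isUInf354_of_inLevelGroup hu), chi354_of_inLevelGroup n hu, mul_one,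
      h0.level_right u hu g]
  · intro u hu g
    unfold testT354
    rw [Q354_mul_left n g (isUInf354_of_inLevelGroup hu), chi354_of_inLevelGroup n hu, mul_one,
      h0.level_left u hu g]
  · intro w k hk g
    unfold testT354
    rw [Q354_mul_right n g (isUInf354_of_isArchCompact hk), chi354_of_isArchCompact hn hk,
      h0.arch_right w k hk g, map_mul, conj_eq_inv354 (hτ.norm_one w k hk)]
    ring
  · intro w k hk g
    unfold testT354
    rw [Q354_mul_left n g (isUInf354_of_isArchCompact hk), chi354_of_isArchCompact hn hk,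
      h0.arch_left w k hk g, map_mul, conj_eq_inv354 (hτ.norm_one w k hk)]
    ring

theorem isSphTestT_testT354 (h𝔫 : 𝔫 ≠ ⊥) (hτ : IsKType τ)
    (hn : ∀ (w : InfinitePlace K) (k : G K), IsArchCompact w k →
      τ k = Ploc354 w (infComp w k) ^ n w)
    {η : ℝ} (hη : 0 < η) (hη1 : η ≤ 1) (c : ℝ) :
    IsSphTestT 𝔫 τ (testT354 n (testFn907 𝔫 η c)) where
  test := isTestT_testT354 h𝔫 hτ hn hη hη1 c
  bad_unit := by
    intro g hg v hv i j
    have h1 : testFn907 𝔫 η c g ≠ 0 := by
      intro h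
      apply hg
      unfold testT354
      rw [h, mul_zero]
    exact (isSphTestFn_testFn907 h𝔫 hη hη1 c).bad_unit g h1 v hv i j

theorem adj_testT354 (n : InfinitePlace K → ℤ) (𝔫 : Ideal (𝓞 K)) {η : ℝ} (hη : 0 < η)
    (hη1 : η ≤ 1) (c : ℝ) :
    adj (testT354 n (testFn907 𝔫 η c)) = testT354 n (testFn907 𝔫 η c) := by
  funext g
  have e : (starRingEnd ℂ) (testFn907 𝔫 η c g⁻¹) = testFn907 𝔫 η c g :=
    congrFun (adj_testFn907 𝔫 η c) g
  unfold adj testT354
  rw [map_mul, Complex.conj_conj, e]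
  by_cases h0 : testFn907 𝔫 η c g = 0
  · rw [h0, mul_zero, mul_zero]
  · have hb : bump907 𝔫 η g ≠ 0 := by
      intro hb
      apply h0
      unfold testFn907
      rw [hb, mul_zero, Complex.ofReal_zero]
    have hD := (pfin_of_bump907_ne_zero hη hb).2
    rw [Q354_inv n g fun w hw => det_re_pos_of_defect354 (lt_of_lt_of_le hD hη1) hw]

end Test

/-! ## The auxiliary functions -/

/-- `ψ_x (g) = φ (x g) conj (Q g)`. -/
def psiX354 (n : InfinitePlace K → ℤ) (φ : G K → ℂ) (x : G K) (g : G K) : ℂ :=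
  φ (x * g) * conj (Q354 n g)

section Psi

variable {𝔫 : Ideal (𝓞 K)} {τ : G K → ℂ} {n : InfinitePlace K → ℤ} {r : G K} {φ : G K → ℂ}

theorem continuous_psiX354 (n : InfinitePlace K → ℤ) (hφ : Continuous φ) (x : G K) :
    Continuous (psiX354 n φ x) :=
  (hφ.comp (continuous_const.mul continuous_id)).mul
    (Complex.continuous_conj.comp (continuous_Q354 n))

theorem psiX354_one (n : InfinitePlace K → ℤ) (φ : G K → ℂ) (x : G K) :
    psiX354 n φ x 1 = φ x := by
  unfold psiX354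
  rw [mul_one, Q354_one, map_one, mul_one]

theorem psiX354_level (n : InfinitePlace K → ℤ) (hφ : IsAutT 𝔫 τ r φ) (x : G K) (u : G K)
    (hu : InLevelGroup 𝔫 u) (g : G K) : psiX354 n φ x (g * u) = psiX354 n φ x g := by
  unfold psiX354
  rw [← mul_assoc, hφ.level_inv u hu, Q354_mul_right n g (isUInf354_of_inLevelGroup hu),
    chi354_of_inLevelGroup n hu, mul_one]

theorem psiX354_arch (hτ : IsKType τ)
    (hn : ∀ (w : InfinitePlace K) (k : G K), IsArchCompact w k →
      τ k = Ploc354 w (infComp w k) ^ n w)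
    (hφ : IsAutT 𝔫 τ r φ) (x : G K) (w : InfinitePlace K) (k : G K)
    (hk : IsArchCompact w k) (g : G K) : psiX354 n φ x (g * k) = psiX354 n φ x g := by
  unfold psiX354
  rw [← mul_assoc, hφ.arch_compact w k hk, Q354_mul_right n g (isUInf354_of_isArchCompact hk),
    chi354_of_isArchCompact hn hk, map_mul]
  have h1 : τ k * conj (τ k) = 1 := by
    rw [Complex.mul_conj, Complex.normSq_eq_norm_sq, hτ.norm_one w k hk]; simp
  linear_combination (φ (x * g) * conj (Q354 n g)) * h1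

theorem norm_psiX354_le {B : ℝ} (hB : ∀ g, ‖φ g‖ ≤ B) (n : InfinitePlace K → ℤ) (x g : G K) :
    ‖psiX354 n φ x g‖ ≤ B := by
  unfold psiX354
  rw [norm_mul, RCLike.norm_conj]
  have h1 := hB (x * g)
  have h2 := norm_Q354_le n g
  have h3 : 0 ≤ B := (norm_nonneg _).trans h1
  calc ‖φ (x * g)‖ * ‖Q354 n g‖ ≤ B * 1 :=
        mul_le_mul h1 h2 (norm_nonneg _) h3
    _ = B := mul_one B

/-- The convolution by the twisted test function, in terms of `ψ_x`. -/
theorem conv_testT354 (F : Frame K) (n : InfinitePlace K → ℤ) (f₀ φ : G K → ℂ) (x : G K) :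
    conv F (testT354 n f₀) φ x = conv F f₀ (psiX354 n φ x) 1 := by
  unfold conv testT354 psiX354
  refine integral_congr_ae (Eventually.of_forall fun h => ?_)
  simp only [one_mul]
  ring

end Psi

/-! ## The leaf -/

theorem approxIdT_h354 {𝔫 : Ideal (𝓞 K)} (h𝔫 : 𝔫 ≠ ⊥) {τ : G K → ℂ} (hτ : IsKType τ)
    (hC : ConvCuspT K 𝔫 τ) : ApproxIdT K 𝔫 τ := by
  obtain ⟨n, hn⟩ := ktype_class354 hτ
  intro R φ hφ ε hε
  have := borelSpace_G907 (K := K)
  have := R.F.haar
  obtain ⟨B, hB⟩ := hφ.aut.bdd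
  have hB0 : 0 ≤ B := (norm_nonneg _).trans (hB 1)
  -- the sequence
  set η : ℕ → ℝ := fun k => 1 / ((k : ℝ) + 1) with hη
  have hηpos : ∀ k, 0 < η k := fun k => by positivity
  have hη1 : ∀ k, η k ≤ 1 := fun k => by
    rw [hη, div_le_one (by positivity)]
    have : (0 : ℝ) ≤ k := Nat.cast_nonneg k
    linarith
  set f : ℕ → G K → ℂ := fun k => testT354 n (apx907 R.F 𝔫 (η k)) with hf
  have hfT : ∀ k, IsSphTestT 𝔫 τ (f k) := fun k =>
    isSphTestT_testT354 h𝔫 hτ hn (hηpos k) (hη1 k) _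
  set ψ : ℕ → G K → ℂ := fun k g => conv R.F (f k) φ g - φ g with hψ
  have hψeq : ∀ k g, ψ k g
      = conv R.F (apx907 R.F 𝔫 (η k)) (psiX354 n φ g) 1 - psiX354 n φ g 1 := fun k g => by
    rw [hψ, hf]
    simp only
    rw [conv_testT354, psiX354_one]
  have hψc : ∀ k, Continuous (ψ k) := fun k =>
    ((hC R).2.2.1 _ φ (hfT k).test hφ).aut.cont.sub hφ.aut.cont
  have hψb : ∀ k g, ‖ψ k g‖ ≤ 2 * B := fun k g => by
    rw [hψeq]
    refine norm_conv_sub_le907 R.F h𝔫 (hηpos k) (hη1 k)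
      (continuous_psiX354 n hφ.aut.cont g) 1 fun h _ => ?_
    calc ‖psiX354 n φ g (1 * h) - psiX354 n φ g 1‖
        ≤ ‖psiX354 n φ g (1 * h)‖ + ‖psiX354 n φ g 1‖ := norm_sub_le _ _
      _ ≤ B + B := add_le_add (norm_psiX354_le hB n g _) (norm_psiX354_le hB n g _)
      _ = 2 * B := by ring
  have hψlim : ∀ g, Tendsto (fun k => ψ k g) atTop (𝓝 0) := fun g => by
    rw [Metric.tendsto_atTop]
    intro ε' hε'
    obtain ⟨k₀, hk₀⟩ := exists_close907 h𝔫 (continuous_psiX354 n hφ.aut.cont g)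
      (psiX354_level n hφ.aut g) (psiX354_arch hτ hn hφ.aut g) 1 (half_pos hε')
    refine ⟨k₀, fun k hk => ?_⟩
    rw [dist_zero_right]
    have hle : ‖ψ k g‖ ≤ ε' / 2 := by
      rw [hψeq]
      refine norm_conv_sub_le907 R.F h𝔫 (hηpos k) (hη1 k)
        (continuous_psiX354 n hφ.aut.cont g) 1 fun h hb => ?_
      obtain ⟨hP, hD⟩ := pfin_of_bump907_ne_zero (hηpos k) hb
      refine (hk₀ h hP (hD.le.trans ?_)).le
      rw [hη]
      apply one_div_le_one_div_of_le (by positivity)
      have : (k₀ : ℝ) ≤ k := Nat.cast_le.mpr hk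
      linarith
    linarith
  -- dominated convergence on the fundamental domain
  have hfin : IsFiniteMeasure (R.F.μ.restrict R.F.D) :=
    ⟨by rw [Measure.restrict_apply_univ]; exact R.F.fin⟩
  have hlim : Tendsto (fun k => ∫ g in R.F.D, ψ k g * (starRingEnd ℂ) (ψ k g) ∂(R.F.μ)) atTop
      (𝓝 (∫ _ in R.F.D, (0 : ℂ) ∂(R.F.μ))) := by
    refine tendsto_integral_of_dominated_convergence (fun _ => (2 * B) ^ 2)
      (fun k => ?_) (integrable_const _) (fun k => Eventually.of_forall fun g => ?_)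
      (Eventually.of_forall fun g => ?_)
    · exact ((hψc k).mul (Complex.continuous_conj.comp (hψc k))).aestronglyMeasurable
    · rw [norm_mul, RCLike.norm_conj, ← sq]
      exact pow_le_pow_left₀ (norm_nonneg _) (hψb k g) 2
    · have := (hψlim g).mul ((Complex.continuous_conj.tendsto 0).comp (hψlim g))
      simpa using this
  rw [integral_zero] at hlim
  have hre : Tendsto (fun k => nsq R.F (ψ k)) atTop (𝓝 0) := by
    have h0 : Tendsto (fun k => (∫ g in R.F.D, ψ k g * (starRingEnd ℂ) (ψ k g) ∂(R.F.μ)).re) atTop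
        (𝓝 ((0 : ℂ).re)) := (Complex.continuous_re.tendsto 0).comp hlim
    rw [Complex.zero_re] at h0
    exact h0
  obtain ⟨k, hk⟩ := ((tendsto_order.1 hre).2 ε hε).exists
  exact ⟨f k, hfT k, adj_testT354 n 𝔫 (hηpos k) (hη1 k) _, hk⟩

/-- **T2.26 `LeafT06`** (frozen Prop of `T2/SpecTau.lean`). -/
theorem leafT06_h354 (K : Type) [Field K] [NumberField K] : LeafT06 K :=
  fun _ _ _ h𝔫 hτ _ hC => approxIdT_h354 h𝔫 hτ hC

end Fermat.Agent.LT.T2.H354

end
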